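import Mathlib
import Fermat.Agent.LT.T6.Spec
import Fermat.Agent.LT.T6.H60.EllUnrSpec
import Fermat.Agent.LT.T6.H60.EllUnrSpec2
import Fermat.Agent.LT.H338.TreeDist
import Fermat.Agent.LT.T6.H340.BTTree
import Fermat.Agent.LT.T6.H277.OrbEllSpec

/-!
# Row LT, tower T6, leaf T6.13.3b (`H60.FixTwC`, registry 1133 / 982) -- sub-spec (helper865)

OFF-MAIN.  Definitions + frozen Props of the sub-leaves of `H60.FixTwC`
(helper60 `T6/H60/EllUnrSpec2.lean`, sha256 75a22aba, on `T6/Spec.lean` 89f8f8b8; tree of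
helper340 `T6/H340/BTTree.lean`; normal form `IsNF277` and `BallCountC` of helper277
`T6/H277/OrbEllSpec.lean` 7b0956b2).  Nothing is assumed.  Assemblies: `T6/H865/TwEllTop.lean`.

`k'/k` unramified of prime degree `l`, generator `s`; `δ ∈ GL₂(k')`, `N δ ∼ γ ∈ GL₂(k)` regular,
without eigenvalue in `k`, `k[γ]/k` unramified, `ord det γ = 2 j`, `ord disc γ = 2 j + 2 r`.
`F = btTw340 s _ δ` is the isometry `[x] ↦ [δ s(x)]` of the tree `X'` of `k'`.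
CLAIM (`H60.FixTwC`): if `F` fixes a vertex it fixes exactly `ballCard q r` vertices.
The cut is UNIFORM in `l` (no case distinction `l` odd / `l = 2`).

`FixTwC ⇐ TwNFC865 + TwNFCountC865`, `TwNFC865 ⇐ NFExistsC865 + LatSumC865`,
`TwNFCountC865 ⇐ H90rC865 + FixSigmaC865 + OutsideC865 + CongFixC865 + H277.BallCountC`:
* `NFExistsC865` : `γ` is conjugate to a normal form `ϖ^j (a + ϖ^r w)` with the GIVEN `j`, `r`;
* `LatSumC865` : a finite sum of lattices `h_m 𝒪²` is a lattice `x 𝒪²`;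
* `TwNFC865` : TWISTED NORMAL FORM AT THE CENTRE: `x⁻¹ δ s(x) = z u`, `u ∈ GL₂(𝒪')`,
  `N u = a + ϖ^r W`, `a ∈ 𝒪`, `W ∈ GL₂(𝒪')`, `tr W, det W ∈ 𝒪`, `χ_W` without root modulo `ϖ` in
  `𝒪` (the lattice `∑_{m<l} (z⁻¹ δ s)^m Λ₀`, `Λ₀ = G 𝒪'²` stable under `Θ = G w G⁻¹`,
  `N δ = G γ G⁻¹`: it is stable under `z⁻¹ δ s` and under `Θ`);
* `H90rC865` : `N u ≡ a mod ϖ^r` ⇒ `y⁻¹ u s(y) = c₀ (1 + ϖ^r m)`, `y ∈ GL₂(𝒪')`, `c₀ ∈ 𝒪'ˣ`
  (norm onto the units + Hilbert 90 for `GL₂(𝒪'/ϖ^r)`);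
* `CongFixC865` : `g = c₀ (1 + ϖ^r m) ∈ GL₂(𝒪)` fixes the ball of radius `r` around `[1]`
  pointwise (so `F = s` on this ball after `H90rC865`);
* `FixSigmaC865` : a vertex of `X'` fixed by `s` is the image of a vertex of the tree of `k`;
* `OutsideC865` : in twisted normal form no vertex at distance `r + 1` from `[1]` is fixed.
-/

set_option autoImplicit false

open scoped Matrix

noncomputable section

namespace Fermat.Agent.LT.T6.H865

open Fermat.Agent.LT.T6 Fermat.Agent.LT.T6.H60 Fermat.Agent.LT.H338 Fermat.Agent.LT.T6.H340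
  Fermat.Agent.LT.T6.H277

section Defs

variable {k k' : Type} [Field k] [Field k'] [Valued k Γ₀] [Valued k' Γ₀]

/-- `k'/k` is an unramified cyclic extension of local fields of prime degree `l`, generator
`s`, residue fields of `q` and `q ^ l` elements. -/
structure IsUnrExt865 (q l : ℕ) (i : k →+* k') (s : k' ≃+* k') : Prop where
  hk : IsLocalField k q
  hk' : IsLocalField k' (q ^ l)
  hext : IsLocalExt k k' l 1 i s
  hl : l.Prime

/-- The standing hypotheses of T6.13.3. -/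
structure IsEllUnrTw865 (q l : ℕ) (i : k →+* k') (s : k' ≃+* k') (δ : GL (Fin 2) k')
    (γ : GL (Fin 2) k) (j : ℤ) (r : ℕ) : Prop where
  unr : IsUnrExt865 q l i s
  hreg : IsReg γ
  hne : ¬ HasEigen k γ
  hnr : ¬ HasRamUnif k γ
  hconj : IsConj (twNorm s l δ) (Matrix.GeneralLinearGroup.map i γ)
  hj : ordDet γ = 2 * j
  hr : ordDisc γ = 2 * j + 2 * (r : ℤ)

/-- **The twisted normal form.**  `u, W ∈ GL₂(𝒪')`, `N u = a + ϖ^r W`, `a ∈ 𝒪`,
`tr W = t'`, `det W = n'` in `𝒪`, and `X² - t' X + n'` has no root modulo `ϖ` in `𝒪`. -/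
structure IsTwNF865 (l : ℕ) (i : k →+* k') (s : k' ≃+* k') (ϖ a t' n' : k) (r : ℕ)
    (W u : GL (Fin 2) k') : Prop where
  unif : Valued.v ϖ = WithZero.exp (-1 : ℤ)
  a_int : Valued.v a ≤ 1
  t_int : Valued.v t' ≤ 1
  n_unit : Valued.v n' = 1
  irr : ∀ b : k, Valued.v b ≤ 1 → Valued.v (chi277 t' n' b) = 1
  W_int : InU 0 W
  u_int : InU 0 u
  W_tr : (W : Matrix (Fin 2) (Fin 2) k').trace = i t'
  W_det : (W : Matrix (Fin 2) (Fin 2) k').det = i n'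
  norm_eq : (twNorm s l u : Matrix (Fin 2) (Fin 2) k')
    = i a • (1 : Matrix (Fin 2) (Fin 2) k') + i ϖ ^ r • (W : Matrix (Fin 2) (Fin 2) k')

end Defs

/-! ## The leaves -/

/-- **T6.13.3b.1 (NFExists).**  `γ` is conjugate in `GL₂(k)` to a normal form `y = ϖ^j (a + ϖ^r w)`
(from `PolyNFC`, `DiscUnitC`, `CompanionC` of helper277; the exponents are those of the
hypotheses). -/
def NFExistsC865 : Prop :=
  ∀ (k : Type) [Field k] [Valued k Γ₀] (q : ℕ), IsLocalField k q →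
    ∀ (γ : GL (Fin 2) k) (j : ℤ) (r : ℕ), IsReg γ → ¬ HasEigen k γ → ¬ HasRamUnif k γ →
      ordDet γ = 2 * j → ordDisc γ = 2 * j + 2 * (r : ℤ) →
      ∃ (ϖ a : k) (w u y h : GL (Fin 2) k), IsNF277 ϖ j r a w u y ∧ γ = h * y * h⁻¹

/-- **T6.13.3b.2 (LatSum).**  The sum of finitely many lattices `h_m 𝒪²` is a lattice `x 𝒪²`:
`x⁻¹ h_m` is integral for every `m` and `x = ∑ h_m c_m` with integral `c_m`. -/
def LatSumC865 : Prop :=
  ∀ (k : Type) [Field k] [Valued k Γ₀] (q : ℕ), IsLocalField k q →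
    ∀ (n : ℕ) (h : Fin (n + 1) → GL (Fin 2) k),
      ∃ (x : GL (Fin 2) k) (c : Fin (n + 1) → Matrix (Fin 2) (Fin 2) k),
        (∀ m a b, Valued.v (((x⁻¹ * h m : GL (Fin 2) k) : Matrix (Fin 2) (Fin 2) k) a b) ≤ 1) ∧
        (∀ m a b, Valued.v (c m a b) ≤ 1) ∧
        (x : Matrix (Fin 2) (Fin 2) k) = ∑ m, (h m : Matrix (Fin 2) (Fin 2) k) * c m

/-- **T6.13.3b.3 (TwNF).**  The twisted normal form at the centre exists when `l ∣ j`. -/
def TwNFC865 : Prop :=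
  ∀ (k k' : Type) [Field k] [Field k'] [Valued k Γ₀] [Valued k' Γ₀] (q l : ℕ)
    (i : k →+* k') (s : k' ≃+* k') (δ : GL (Fin 2) k') (γ : GL (Fin 2) k) (j : ℤ) (r : ℕ),
    IsEllUnrTw865 q l i s δ γ j r → (l : ℤ) ∣ j →
    ∃ (ϖ a t' n' : k) (W u x : GL (Fin 2) k') (z : k'),
      IsTwNF865 l i s ϖ a t' n' r W u ∧ z ≠ 0 ∧
      ((x⁻¹ * δ * glAut s x : GL (Fin 2) k') : Matrix (Fin 2) (Fin 2) k')
        = z • (u : Matrix (Fin 2) (Fin 2) k')

/-- **T6.13.3b.4 (TwNFCount).**  In twisted normal form the twisted action of `u` has exactly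
`ballCard q r` fixed vertices. -/
def TwNFCountC865 : Prop :=
  ∀ (k k' : Type) [Field k] [Field k'] [Valued k Γ₀] [Valued k' Γ₀] (q l : ℕ)
    (i : k →+* k') (s : k' ≃+* k') (hU : IsUnrExt865 q l i s) (ϖ a t' n' : k) (r : ℕ)
    (W u : GL (Fin 2) k'), IsTwNF865 l i s ϖ a t' n' r W u →
    {p | btTw340 s hU.hext.val_s u p = p}.Finite ∧
      {p | btTw340 s hU.hext.val_s u p = p}.ncard = ballCard q r

/-- **T6.13.3b.5 (H90r).**  `u ∈ GL₂(𝒪')` with `N u ≡ a mod ϖ^r`, `a ∈ k`: then `u` is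
`s`-conjugate under `GL₂(𝒪')` to `c₀ (1 + ϖ^r m)`, `c₀ ∈ 𝒪'ˣ`, `m` integral. -/
def H90rC865 : Prop :=
  ∀ (k k' : Type) [Field k] [Field k'] [Valued k Γ₀] [Valued k' Γ₀] (q l : ℕ)
    (i : k →+* k') (s : k' ≃+* k'), IsUnrExt865 q l i s →
    ∀ (ϖ a : k) (r : ℕ) (u : GL (Fin 2) k') (M : Matrix (Fin 2) (Fin 2) k'),
      Valued.v ϖ = WithZero.exp (-1 : ℤ) → InU 0 u → (∀ b c, Valued.v (M b c) ≤ 1) →
      (twNorm s l u : Matrix (Fin 2) (Fin 2) k')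
        = i a • (1 : Matrix (Fin 2) (Fin 2) k') + i ϖ ^ r • M →
      ∃ (y : GL (Fin 2) k') (c₀ : k') (m : Matrix (Fin 2) (Fin 2) k'),
        InU 0 y ∧ Valued.v c₀ = 1 ∧ (∀ b c, Valued.v (m b c) ≤ 1) ∧
        ((y⁻¹ * u * glAut s y : GL (Fin 2) k') : Matrix (Fin 2) (Fin 2) k')
          = c₀ • ((1 : Matrix (Fin 2) (Fin 2) k') + i ϖ ^ r • m)

/-- **T6.13.3b.6 (FixSigma).**  A vertex of the tree of `k'` fixed by `s` comes from the tree of
`k`. -/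
def FixSigmaC865 : Prop :=
  ∀ (k k' : Type) [Field k] [Field k'] [Valued k Γ₀] [Valued k' Γ₀] (q l : ℕ)
    (i : k →+* k') (s : k' ≃+* k') (hU : IsUnrExt865 q l i s) (x : GL (Fin 2) k'),
    btAut340 s hU.hext.val_s (btMk340 x) = btMk340 x →
    ∃ x₀ : GL (Fin 2) k, btMk340 (Matrix.GeneralLinearGroup.map i x₀) = btMk340 x

/-- **T6.13.3b.7 (Outside).**  In twisted normal form no vertex at distance `r + 1` from `[1]`
is fixed by the twisted action of `u`. -/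
def OutsideC865 : Prop :=
  ∀ (k k' : Type) [Field k] [Field k'] [Valued k Γ₀] [Valued k' Γ₀] (q l : ℕ)
    (i : k →+* k') (s : k' ≃+* k') (hU : IsUnrExt865 q l i s) (ϖ a t' n' : k) (r : ℕ)
    (W u : GL (Fin 2) k'), IsTwNF865 l i s ϖ a t' n' r W u →
    ∀ p : BTVert340 k', btDist340 (btMk340 1) p = r + 1 → btTw340 s hU.hext.val_s u p ≠ p

/-- **T6.13.3b.8 (CongFix).**  `g ∈ GL₂(𝒪)`, `g = c₀ (1 + ϖ^r m)` with `m` integral, fixes every
vertex at distance `≤ r` from `[1]`. -/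
def CongFixC865 : Prop :=
  ∀ (k : Type) [Field k] [Valued k Γ₀] (q : ℕ), IsLocalField k q →
    ∀ (ϖ c₀ : k) (r : ℕ) (g : GL (Fin 2) k) (m : Matrix (Fin 2) (Fin 2) k),
      Valued.v ϖ = WithZero.exp (-1 : ℤ) → InU 0 g → (∀ b c, Valued.v (m b c) ≤ 1) →
      (g : Matrix (Fin 2) (Fin 2) k) = c₀ • ((1 : Matrix (Fin 2) (Fin 2) k) + ϖ ^ r • m) →
      ∀ x : GL (Fin 2) k, cdist340 x ≤ r → cdist340 (x⁻¹ * g * x) = 0

end Fermat.Agent.LT.T6.H865
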