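import Mathlib
import Fermat.Agent.LT.T6.H865.TwEllSpec
import Fermat.Agent.LT.T6.H60.EllUnrAsm

/-!
# Row LT, tower T6, leaf T6.13.3b (`H60.FixTwC`) -- top assembly (helper865), OFF-MAIN

`fixTw_of_leaves865 : TwNFC865 → TwNFCountC865 → H60.FixTwC` (PROVED): a fixed vertex forces
`l ∣ j`; the twisted normal form `x⁻¹ δ s(x) = z u` conjugates the twisted action of `δ` into the
twisted action of `u` (`btTw_conj865`), so the fixed vertices correspond.
-/

set_option autoImplicit false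
set_option linter.unusedSectionVars false

open scoped Matrix

noncomputable section

namespace Fermat.Agent.LT.T6.H865

open Fermat.Agent.LT.T6 Fermat.Agent.LT.T6.H60 Fermat.Agent.LT.H338 Fermat.Agent.LT.T6.H340
  Fermat.Agent.LT.T6.H277 Fermat.Agent.LT.H129

section Conj

variable {k' : Type} [Field k'] [Valued k' Γ₀]

/-- A matrix identity `g = z • u` in `GL₂` is `g = scal340 z * u`. -/
theorem eq_scal_mul_of_coe865 {g u : GL (Fin 2) k'} {z : k'} (hz : z ≠ 0)
    (h : (g : Matrix (Fin 2) (Fin 2) k') = z • (u : Matrix (Fin 2) (Fin 2) k')) :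
    g = scal340 z hz * u := by
  apply ext_mat129
  ext a b
  rw [scal340_mul_apply, h, Matrix.smul_apply, smul_eq_mul]

theorem btMul340_injective865 (x : GL (Fin 2) k') : Function.Injective (btMul340 x) := by
  intro p p' h
  have := congrArg (btMul340 x⁻¹) h
  rwa [← btMul340_mul, ← btMul340_mul, inv_mul_cancel, btMul340_one, btMul340_one] at this

/-- If `x⁻¹ δ s(x) = z u` then `δ s ∘ x = x ∘ u s` on the vertices. -/
theorem btTw_conj865 (s : k' ≃+* k') (hs : ∀ y : k', Valued.v (s y) = Valued.v y)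
    {δ u x : GL (Fin 2) k'} {z : k'} (hz : z ≠ 0)
    (h : x⁻¹ * δ * glAut s x = scal340 z hz * u) (p : BTVert340 k') :
    btTw340 s hs δ (btMul340 x p) = btMul340 x (btTw340 s hs u p) := by
  obtain ⟨w, rfl⟩ := btMk340_surjective p
  rw [btMul340_mk, btTw340_mk, btTw340_mk, btMul340_mk, btMk340_eq_iff]
  have e : (δ * glAut s (x * w))⁻¹ * (x * (u * glAut s w))
      = (glAut s w)⁻¹ * ((x⁻¹ * δ * glAut s x)⁻¹ * u) * glAut s w := by
    rw [map_mul]; group
  rw [e, h]
  have e2 : (scal340 z hz * u)⁻¹ * u = scal340 z⁻¹ (inv_ne_zero hz) := by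
    have e3 : (scal340 z hz)⁻¹ = scal340 z⁻¹ (inv_ne_zero hz) := by
      rw [inv_eq_iff_mul_eq_one]
      apply ext_mat129
      ext a b
      rw [scal340_mul_apply, coe_scal340]
      fin_cases a <;> fin_cases b <;> simp [hz]
    rw [scal340_comm, mul_inv_rev, mul_assoc, inv_mul_cancel, mul_one, e3]
  rw [e2, ← scal340_comm, mul_assoc, inv_mul_cancel, mul_one]
  have := cdist340_scal_mul z⁻¹ (inv_ne_zero hz) (1 : GL (Fin 2) k')
  rwa [mul_one, cdist340_one] at this

/-- The fixed vertices of `δ s` are the translates by `x` of the fixed vertices of `u s`. -/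
theorem fix_conj865 (s : k' ≃+* k') (hs : ∀ y : k', Valued.v (s y) = Valued.v y)
    {δ u x : GL (Fin 2) k'} {z : k'} (hz : z ≠ 0)
    (h : x⁻¹ * δ * glAut s x = scal340 z hz * u) :
    {v | btTw340 s hs δ v = v} = btMul340 x '' {p | btTw340 s hs u p = p} := by
  ext v
  constructor
  · intro hv
    refine ⟨btMul340 x⁻¹ v, ?_, ?_⟩
    · have hxv : btMul340 x (btMul340 x⁻¹ v) = v := by
        rw [← btMul340_mul, mul_inv_cancel, btMul340_one]
      have h1 := btTw_conj865 s hs hz h (btMul340 x⁻¹ v)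
      rw [hxv] at h1
      apply btMul340_injective865 x
      rw [← h1, hxv]
      exact hv
    · rw [← btMul340_mul, mul_inv_cancel, btMul340_one]
  · rintro ⟨p, hp, rfl⟩
    show btTw340 s hs δ (btMul340 x p) = btMul340 x p
    rw [btTw_conj865 s hs hz h p]
    exact congrArg _ hp

end Conj

section Top

variable {k k' : Type} [Field k] [Field k'] [Valued k Γ₀] [Valued k' Γ₀]

/-- A fixed vertex of the twisted action of `δ` forces `l ∣ j`. -/
theorem dvd_of_fixed865 {q l : ℕ} {i : k →+* k'} {s : k' ≃+* k'} {δ : GL (Fin 2) k'}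
    {γ : GL (Fin 2) k} {j : ℤ} {r : ℕ} (h : IsEllUnrTw865 q l i s δ γ j r)
    {v : BTVert340 k'} (hv : btTw340 s h.unr.hext.val_s δ v = v) : (l : ℤ) ∣ j := by
  obtain ⟨x, rfl⟩ := btMk340_surjective v
  have h0 : cdist340 (x⁻¹ * δ * glAut s x) = 0 := by
    rw [← btDist340_tw_mk s h.unr.hext.val_s, hv]
    exact (btDist340_eq_zero _ _).2 rfl
  have h1 := ordDet_add_cdist_even60 (x⁻¹ * δ * glAut s x)
  rw [h0, ordDet_twconj60 s h.unr.hext.val_s] at h1
  obtain ⟨m, hm⟩ := h1
  have h2 := ordDet_norm60 s h.unr.hext.val_s i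
    (fun x => by rw [h.unr.hext.val_i, pow_one]) δ γ l h.hconj
  rw [h.hj] at h2
  refine ⟨m, ?_⟩
  have h3 : ordDet δ = 2 * m := by simpa using hm
  rw [h3] at h2
  linarith

/-- **`H60.FixTwC` from the twisted normal form and the count in normal form.** -/
theorem fixTw_of_leaves865 (hN : TwNFC865) (hC : TwNFCountC865) : FixTwC := by
  intro k k' _ _ _ _ q l i s hk hk' hext hl δ γ hreg hne hnr hconj j r hj hr hv
  obtain ⟨v, hv⟩ := hv
  have h : IsEllUnrTw865 q l i s δ γ j r :=
    ⟨⟨hk, hk', hext, hl⟩, hreg, hne, hnr, hconj, hj, hr⟩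
  have hdvd : (l : ℤ) ∣ j := dvd_of_fixed865 h hv
  obtain ⟨ϖ, a, t', n', W, u, x, z, hNF, hz, hx⟩ := hN k k' q l i s δ γ j r h hdvd
  obtain ⟨-, hcard⟩ := hC k k' q l i s h.unr ϖ a t' n' r W u hNF
  have hx' := eq_scal_mul_of_coe865 hz hx
  rw [fix_conj865 s hext.val_s hz hx',
    Set.ncard_image_of_injective _ (btMul340_injective865 x)]
  exact hcard

end Top

end Fermat.Agent.LT.T6.H865
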