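import Mathlib
import Fermat.Agent.LT.T6.H865.TwEllTop
import Fermat.Agent.LT.T6.H166.TwCent

/-!
# Row LT, tower T6, leaf T6.13.3b.4 (`TwNFCountC865`) -- assembly (helper865), OFF-MAIN

`twNFCount_of_leaves865 :
  H90rC865 → FixSigmaC865 → OutsideC865 → CongFixC865 → H277.BallCountC → TwNFCountC865` (PROVED).

In twisted normal form `N u = a + ϖ^r W`: by `H90rC865` `g₁ = y⁻¹ u s(y) = c₀ (1 + ϖ^r m)` with
`y ∈ GL₂(𝒪')`; `(y⁻¹ W y, g₁)` is again in twisted normal form (`isTwNF_conj865`); the twisted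
action `G` of `g₁` fixes `o = [1]`; a fixed vertex has distance `≤ r` from `o` (`OutsideC865` and
`fixed_par338`); on the ball of radius `r` the left translation by `g₁` is the identity
(`CongFixC865`), so `G = s` there; the vertices of the ball fixed by `s` are the image of the
ball of radius `r` of the tree of `k` (`FixSigmaC865`, `cdist340_map60`), which has
`ballCard q r` elements (`BallCountC`).
-/

set_option autoImplicit false
set_option linter.unusedSectionVars false

open scoped Matrix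

noncomputable section

namespace Fermat.Agent.LT.T6.H865

open Fermat.Agent.LT.T6 Fermat.Agent.LT.T6.H60 Fermat.Agent.LT.H338 Fermat.Agent.LT.T6.H340
  Fermat.Agent.LT.T6.H277 Fermat.Agent.LT.H129

section Aux

variable {k' : Type} [Field k'] [Valued k' Γ₀]

theorem inU_glAut865 (s : k' ≃+* k') (hs : ∀ y : k', Valued.v (s y) = Valued.v y)
    {y : GL (Fin 2) k'} (hy : InU 0 y) : InU 0 (glAut s y) := by
  have key : ∀ (g : GL (Fin 2) k') (a b : Fin 2),
      ((glAut s g : GL (Fin 2) k') : Matrix (Fin 2) (Fin 2) k') a b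
          - (1 : Matrix (Fin 2) (Fin 2) k') a b
        = s ((g : Matrix (Fin 2) (Fin 2) k') a b - (1 : Matrix (Fin 2) (Fin 2) k') a b) := by
    intro g a b
    rw [coe_glAut340, map_sub]
    congr 1
    by_cases hab : a = b
    · subst hab; simp
    · simp [hab]
  intro a b
  refine ⟨?_, ?_⟩
  · rw [key, hs]; exact (hy a b).1
  · rw [← map_inv, key, hs]; exact (hy a b).2

/-- The twisted norm of a twisted conjugate. -/
theorem twNorm_twconj865 (s : k' ≃+* k') (d x : GL (Fin 2) k') (n : ℕ) :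
    twNorm s n (x⁻¹ * d * glAut s x) = x⁻¹ * twNorm s n d * (glAut s)^[n] x := by
  induction n with
  | zero =>
    show (1 : GL (Fin 2) k') = x⁻¹ * 1 * x
    group
  | succ n ih =>
    have e1 : twNorm s (n + 1) (x⁻¹ * d * glAut s x)
        = (x⁻¹ * d * glAut s x) * glAut s (twNorm s n (x⁻¹ * d * glAut s x)) := rfl
    have e2 : twNorm s (n + 1) d = d * glAut s (twNorm s n d) := rfl
    rw [e1, e2, ih, Function.iterate_succ_apply', map_mul, map_mul, map_inv]
    group

theorem depth_mk865 (x : GL (Fin 2) k') : btDist340 (btMk340 1) (btMk340 x) = cdist340 x := by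
  rw [btDist340_mk, inv_one, one_mul]

theorem inU_int865 {g : GL (Fin 2) k'} (hg : InU 0 g) (a b : Fin 2) :
    Valued.v ((g : Matrix (Fin 2) (Fin 2) k') a b) ≤ 1 := by
  have h := ((inU_zero_iff129 g).1 hg).1 a b
  exact (mem_vO129 _).1 h

end Aux

section Conj

variable {k k' : Type} [Field k] [Field k'] [Valued k Γ₀] [Valued k' Γ₀]

/-- The twisted normal form is stable under twisted conjugation by `y ∈ GL₂(𝒪')`. -/
theorem isTwNF_conj865 {q l : ℕ} {i : k →+* k'} {s : k' ≃+* k'} (hU : IsUnrExt865 q l i s)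
    {ϖ a t' n' : k} {r : ℕ} {W u : GL (Fin 2) k'} (h : IsTwNF865 l i s ϖ a t' n' r W u)
    {y : GL (Fin 2) k'} (hy : InU 0 y) :
    IsTwNF865 l i s ϖ a t' n' r (y⁻¹ * W * y) (y⁻¹ * u * glAut s y) := by
  have hyy : ((y⁻¹ : GL (Fin 2) k') : Matrix (Fin 2) (Fin 2) k')
      * (y : Matrix (Fin 2) (Fin 2) k') = 1 := by
    rw [← Matrix.GeneralLinearGroup.coe_mul, inv_mul_cancel]; rfl
  have hyy' : (y : Matrix (Fin 2) (Fin 2) k')
      * ((y⁻¹ : GL (Fin 2) k') : Matrix (Fin 2) (Fin 2) k') = 1 := by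
    rw [← Matrix.GeneralLinearGroup.coe_mul, mul_inv_cancel]; rfl
  refine ⟨h.unif, h.a_int, h.t_int, h.n_unit, h.irr, ?_, ?_, ?_, ?_, ?_⟩
  · exact inU_zero_mul129 (inU_zero_mul129 (inU_zero_inv129 hy) h.W_int) hy
  · exact inU_zero_mul129 (inU_zero_mul129 (inU_zero_inv129 hy) h.u_int)
      (inU_glAut865 s hU.hext.val_s hy)
  · rw [Matrix.GeneralLinearGroup.coe_mul, Matrix.GeneralLinearGroup.coe_mul,
      Matrix.trace_mul_cycle, hyy', one_mul]
    exact h.W_tr
  · rw [Matrix.GeneralLinearGroup.coe_mul, Matrix.GeneralLinearGroup.coe_mul,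
      Matrix.det_mul, Matrix.det_mul, mul_right_comm, ← Matrix.det_mul, hyy, Matrix.det_one,
      one_mul]
    exact h.W_det
  · rw [twNorm_twconj865, iterate_glAut60 s l hU.hext.cyc.order,
      Matrix.GeneralLinearGroup.coe_mul, Matrix.GeneralLinearGroup.coe_mul, h.norm_eq,
      Matrix.GeneralLinearGroup.coe_mul, Matrix.GeneralLinearGroup.coe_mul,
      Matrix.mul_add, Matrix.add_mul, Matrix.mul_smul, Matrix.smul_mul, Matrix.mul_one, hyy,
      Matrix.mul_smul, Matrix.smul_mul]

end Conj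

section Tree

variable {V : Type} {d : V → V → ℕ} (hd : IsTreeDist338 d) (g : V → V)
  (hg : ∀ x y, d (g x) (g y) = d x y) (o : V) (ho : g o = o)

include hd hg ho in
/-- Below a fixed vertex there are fixed vertices of every smaller depth. -/
theorem exists_fixed_depth865 : ∀ (m : ℕ) (p : V), g p = p → ∀ n : ℕ, d o p = n + m →
    ∃ p', g p' = p' ∧ d o p' = n := by
  intro m
  induction m with
  | zero => intro p hp n hn; exact ⟨p, hp, hn⟩
  | succ m ih =>
    intro p hp n hn
    have hop : o ≠ p := root_ne_of_depth338 hd o (n := n + m) (by omega)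
    have h1 := par338_depth hd o hop
    exact ih (par338 hd o p) (fixed_par338 hd g hg o ho hp) n (by omega)

end Tree

section Iota

variable {k k' : Type} [Field k] [Field k'] [Valued k Γ₀] [Valued k' Γ₀]

/-- The map of the tree of `k` into the tree of `k'` (`k'/k` unramified). -/
def btIota865 (i : k →+* k') (hi : ∀ x : k, Valued.v (i x) = Valued.v x) :
    BTVert340 k → BTVert340 k' :=
  Quotient.map (sa := btSetoid340 k) (sb := btSetoid340 k')
    (fun x => Matrix.GeneralLinearGroup.map i x)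
    (fun x y (h : cdist340 (x⁻¹ * y) = 0) => by
      show cdist340 ((Matrix.GeneralLinearGroup.map i x)⁻¹ * Matrix.GeneralLinearGroup.map i y)
        = 0
      rw [← map_inv, ← map_mul, cdist340_map60 i hi]; exact h)

theorem btIota865_mk (i : k →+* k') (hi : ∀ x : k, Valued.v (i x) = Valued.v x)
    (x : GL (Fin 2) k) :
    btIota865 i hi (btMk340 x) = btMk340 (Matrix.GeneralLinearGroup.map i x) := rfl

theorem btIota865_dist (i : k →+* k') (hi : ∀ x : k, Valued.v (i x) = Valued.v x)
    (p p' : BTVert340 k) :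
    btDist340 (btIota865 i hi p) (btIota865 i hi p') = btDist340 p p' := by
  obtain ⟨x, rfl⟩ := btMk340_surjective p
  obtain ⟨x', rfl⟩ := btMk340_surjective p'
  rw [btIota865_mk, btIota865_mk, btDist340_mk, btDist340_mk, ← map_inv, ← map_mul,
    cdist340_map60 i hi]

theorem btIota865_injective (i : k →+* k') (hi : ∀ x : k, Valued.v (i x) = Valued.v x) :
    Function.Injective (btIota865 i hi) := by
  intro p p' h
  rw [← btDist340_eq_zero, ← btIota865_dist i hi, h]
  exact (btDist340_eq_zero _ _).2 rfl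

end Iota

section Main

variable {k k' : Type} [Field k] [Field k'] [Valued k Γ₀] [Valued k' Γ₀]

theorem val_i865 {q l : ℕ} {i : k →+* k'} {s : k' ≃+* k'} (hU : IsUnrExt865 q l i s) (x : k) :
    Valued.v (i x) = Valued.v x := by
  rw [hU.hext.val_i, pow_one]

/-- The fixed vertices of the twisted action of `g₁ = c₀ (1 + ϖ^r m)` in twisted normal form
are the image of the ball of radius `r` of the tree of `k`. -/
theorem fix_eq_ball865 (hS : FixSigmaC865) (hO : OutsideC865) (hG : CongFixC865)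
    {q l : ℕ} {i : k →+* k'} {s : k' ≃+* k'} (hU : IsUnrExt865 q l i s)
    {ϖ a t' n' : k} {r : ℕ} {W g₁ : GL (Fin 2) k'} (h : IsTwNF865 l i s ϖ a t' n' r W g₁)
    {c₀ : k'} {m : Matrix (Fin 2) (Fin 2) k'} (hm : ∀ b c, Valued.v (m b c) ≤ 1)
    (hg₁ : (g₁ : Matrix (Fin 2) (Fin 2) k')
      = c₀ • ((1 : Matrix (Fin 2) (Fin 2) k') + i ϖ ^ r • m)) :
    {p | btTw340 s hU.hext.val_s g₁ p = p}
      = btIota865 i (val_i865 hU) ''
          {p₀ : BTVert340 k | btDist340 (btMk340 1) p₀ ≤ r} := by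
  have hs := hU.hext.val_s
  have hd' := isTreeDist_btDist340 hU.hk'
  have hϖ' : Valued.v (i ϖ) = WithZero.exp (-1 : ℤ) := by rw [val_i865 hU]; exact h.unif
  have hGo : btTw340 s hs g₁ (btMk340 1) = btMk340 1 := by
    rw [btTw340_mk, map_one, mul_one, btMk340_eq_iff, mul_one]
    exact cdist340_of_inU (inU_zero_inv129 h.u_int)
  have hiso := btDist340_tw s hs g₁
  have hσo : btAut340 s hs (btMk340 1) = btMk340 1 := by rw [btAut340_mk, map_one]
  have hσd : ∀ p, btDist340 (btMk340 1) (btAut340 s hs p) = btDist340 (btMk340 1) p := by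
    intro p
    conv_lhs => rw [← hσo]
    exact btDist340_aut s hs _ _
  have hdepth : ∀ x : GL (Fin 2) k', btDist340 (btMk340 1) (btMk340 x) = cdist340 x := by
    intro x; rw [btDist340_mk, inv_one, one_mul]
  have cong : ∀ p, btDist340 (btMk340 1) p ≤ r → btMul340 g₁ p = p := by
    intro p hp
    obtain ⟨x, rfl⟩ := btMk340_surjective p
    rw [hdepth] at hp
    have h1 := hG k' (q ^ l) hU.hk' (i ϖ) c₀ r g₁ m hϖ' h.u_int hm hg₁ x hp
    rw [btMul340_mk, btMk340_eq_iff]
    have e : (g₁ * x)⁻¹ * x = (x⁻¹ * g₁ * x)⁻¹ := by group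
    rw [e, cdist340_inv]
    exact h1
  ext p
  constructor
  · intro hp
    have hp' : btTw340 s hs g₁ p = p := hp
    have hle : btDist340 (btMk340 1) p ≤ r := by
      by_contra hlt
      obtain ⟨p', hp'fix, hp'd⟩ := exists_fixed_depth865 hd' (btTw340 s hs g₁) hiso (btMk340 1) hGo
        (btDist340 (btMk340 1) p - (r + 1)) p hp' (r + 1) (by omega)
      exact hO k k' q l i s hU ϖ a t' n' r W g₁ h p' hp'd hp'fix
    have hσp : btAut340 s hs p = p := by
      have h1 : btMul340 g₁ (btAut340 s hs p) = p := hp'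
      rw [cong _ (by rw [hσd]; exact hle)] at h1
      exact h1
    obtain ⟨x, rfl⟩ := btMk340_surjective p
    obtain ⟨x₀, hx₀⟩ := hS k k' q l i s hU x hσp
    refine ⟨btMk340 x₀, ?_, ?_⟩
    · show btDist340 (btMk340 1) (btMk340 x₀) ≤ r
      rw [depth_mk865, ← cdist340_map60 i (val_i865 hU), ← hdepth, hx₀]
      exact hle
    · rw [btIota865_mk]; exact hx₀
  · rintro ⟨p₀, hp₀, rfl⟩
    obtain ⟨x₀, rfl⟩ := btMk340_surjective p₀
    have hp₀' : btDist340 (btMk340 1) (btMk340 x₀) ≤ r := hp₀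
    rw [depth_mk865] at hp₀'
    rw [btIota865_mk]
    show btMul340 g₁ (btAut340 s hs (btMk340 (Matrix.GeneralLinearGroup.map i x₀)))
      = btMk340 (Matrix.GeneralLinearGroup.map i x₀)
    rw [btAut340_mk, H166.glAut_map166 i s hU.hext.cyc.fix_i]
    apply cong
    rw [hdepth, cdist340_map60 i (val_i865 hU)]
    exact hp₀'

/-- **T6.13.3b.4 from its leaves.** -/
theorem twNFCount_of_leaves865 (hH : H90rC865) (hS : FixSigmaC865) (hO : OutsideC865)
    (hG : CongFixC865) (hB : BallCountC) : TwNFCountC865 := by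
  intro k k' _ _ _ _ q l i s hU ϖ a t' n' r W u hNF
  have hs := hU.hext.val_s
  obtain ⟨y, c₀, m, hy, -, hm, hyeq⟩ := hH k k' q l i s hU ϖ a r u
    (W : Matrix (Fin 2) (Fin 2) k') hNF.unif hNF.u_int (inU_int865 hNF.W_int) hNF.norm_eq
  have hNF' := isTwNF_conj865 hU hNF hy
  have h1 : y⁻¹ * u * glAut s y = scal340 1 one_ne_zero * (y⁻¹ * u * glAut s y) := by
    apply ext_mat129
    ext a b
    rw [scal340_mul_apply, one_mul]
  have hset : {p | btTw340 s hU.hext.val_s u p = p}
      = btMul340 y '' (btIota865 i (val_i865 hU) ''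
          {p₀ : BTVert340 k | btDist340 (btMk340 1) p₀ ≤ r}) := by
    rw [fix_conj865 s hs one_ne_zero h1, fix_eq_ball865 hS hO hG hU hNF' hm hyeq]
  have hball := hB (BTVert340 k) btDist340 q (isTreeDist_btDist340 hU.hk)
    (ncard_nb_btDist340 hU.hk) (btMk340 1) r
  have hpos : 0 < ballCard q r := by unfold ballCard; omega
  have hfin : {p₀ : BTVert340 k | btDist340 (btMk340 1) p₀ ≤ r}.Finite :=
    Set.finite_of_ncard_pos (by rw [hball]; exact hpos)
  rw [hset]
  refine ⟨(hfin.image _).image _, ?_⟩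
  rw [Set.ncard_image_of_injective _ (btMul340_injective865 y),
    Set.ncard_image_of_injective _ (btIota865_injective i (val_i865 hU)), hball]

end Main

end Fermat.Agent.LT.T6.H865
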