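import Mathlib
import Fermat.Agent.LT.T6.H865.TwEllCount

/-!
# Row LT, tower T6, leaf T6.13.3b.3 (`TwNFC865`) -- assembly (helper865), OFF-MAIN

`twNF_of_leaves865 : NFExistsC865 → LatSumC865 → TwNFC865` (PROVED).

`γ = h₀ y h₀⁻¹`, `y = ϖ^j (a + ϖ^r w)` in normal form, `N δ = G y G⁻¹` in `GL₂(k')`, `j = l j'`,
`z = ϖ^j'`, `δ' = z⁻¹ δ`, `U = N δ' = a + ϖ^r Θ`, `Θ = G w G⁻¹`.  The lattice
`Λ₁ = ∑_{m<l} h_m 𝒪'²`, `h_m = N_m(δ') s^m(G)`, is stable under `δ' s` (`δ' s(h_m) = h_{m+1}`,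
`h_l = h_0 u_y`) and under `Θ` (`Θ h_m = h_m w`); `Λ₁ = x 𝒪'²` (`LatSumC865`), so
`u = x⁻¹ δ' s(x)` and `W = x⁻¹ Θ x` are integral with unit determinant and `N u = a + ϖ^r W`.
-/

set_option autoImplicit false
set_option linter.unusedSectionVars false

open scoped Matrix

noncomputable section

namespace Fermat.Agent.LT.T6.H865

open Fermat.Agent.LT.T6 Fermat.Agent.LT.T6.H60 Fermat.Agent.LT.H338 Fermat.Agent.LT.T6.H340
  Fermat.Agent.LT.T6.H277 Fermat.Agent.LT.H129

/-! ### Integral matrices -/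

section MInt

variable {k' : Type} [Field k'] [Valued k' Γ₀]

/-- A matrix with integral entries. -/
def MInt865 (M : Matrix (Fin 2) (Fin 2) k') : Prop := ∀ a b, Valued.v (M a b) ≤ 1

theorem mint_mul865 {M N : Matrix (Fin 2) (Fin 2) k'} (hM : MInt865 M) (hN : MInt865 N) :
    MInt865 (M * N) := by
  intro a b
  rw [Matrix.mul_apply, Fin.sum_univ_two]
  refine le_trans (Valuation.map_add _ _ _) (max_le ?_ ?_)
  · rw [map_mul]; exact mul_le_one' (hM a 0) (hN 0 b)
  · rw [map_mul]; exact mul_le_one' (hM a 1) (hN 1 b)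

theorem mint_add865 {M N : Matrix (Fin 2) (Fin 2) k'} (hM : MInt865 M) (hN : MInt865 N) :
    MInt865 (M + N) := by
  intro a b
  rw [Matrix.add_apply]
  exact le_trans (Valuation.map_add _ _ _) (max_le (hM a b) (hN a b))

theorem mint_zero865 : MInt865 (0 : Matrix (Fin 2) (Fin 2) k') := by
  intro a b; simp

theorem mint_sum865 {ι : Type} (S : Finset ι) (f : ι → Matrix (Fin 2) (Fin 2) k')
    (h : ∀ m ∈ S, MInt865 (f m)) : MInt865 (∑ m ∈ S, f m) := by
  classical
  induction S using Finset.induction_on with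
  | empty => rw [Finset.sum_empty]; exact mint_zero865
  | insert m S hm ih =>
    rw [Finset.sum_insert hm]
    exact mint_add865 (h m (Finset.mem_insert_self m S))
      (ih (fun m' hm' => h m' (Finset.mem_insert_of_mem hm')))

theorem mint_map865 (s : k' ≃+* k') (hs : ∀ y : k', Valued.v (s y) = Valued.v y)
    {M : Matrix (Fin 2) (Fin 2) k'} (hM : MInt865 M) :
    MInt865 (M.map s) := by
  intro a b
  rw [Matrix.map_apply, hs]; exact hM a b

theorem mint_of_inU865 {g : GL (Fin 2) k'} (hg : InU 0 g) :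
    MInt865 (g : Matrix (Fin 2) (Fin 2) k') := fun a b => inU_int865 hg a b

theorem vdet_of_inU865 {g : GL (Fin 2) k'} (hg : InU 0 g) :
    Valued.v (g : Matrix (Fin 2) (Fin 2) k').det = 1 :=
  valued_det_of_isMaxCpt129 ((inU_zero_iff129 g).1 hg)

theorem coe_glAut_eq_map865 (s : k' ≃+* k') (g : GL (Fin 2) k') :
    ((glAut s g : GL (Fin 2) k') : Matrix (Fin 2) (Fin 2) k')
      = (g : Matrix (Fin 2) (Fin 2) k').map s := by
  ext a b
  rw [coe_glAut340, Matrix.map_apply]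

end MInt

/-! ### Scalars and the twisted norm -/

section Scal

variable {k' : Type} [Field k'] [Valued k' Γ₀]

theorem scal_mul_scal865 {z z' : k'} (hz : z ≠ 0) (hz' : z' ≠ 0) :
    scal340 z hz * scal340 z' hz' = scal340 (z * z') (mul_ne_zero hz hz') := by
  apply ext_mat129
  ext a b
  rw [scal340_mul_apply, coe_scal340, coe_scal340]
  fin_cases a <;> fin_cases b <;> simp

theorem scal_one865 : scal340 (1 : k') one_ne_zero = 1 := by
  apply ext_mat129
  ext a b
  rw [coe_scal340]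
  fin_cases a <;> fin_cases b <;> simp

theorem scal_congr865 {z z' : k'} (hz : z ≠ 0) (hz' : z' ≠ 0) (h : z = z') :
    scal340 z hz = scal340 z' hz' := by
  subst h; rfl

theorem glAut_scal865 (s : k' ≃+* k') {z : k'} (hz : z ≠ 0) (hsz : s z = z) :
    glAut s (scal340 z hz) = scal340 z hz := by
  apply ext_mat129
  ext a b
  rw [coe_glAut340, coe_scal340]
  fin_cases a <;> fin_cases b <;> simp [hsz]

/-- The twisted norm of a multiple by an `s`-fixed scalar. -/
theorem twNorm_scal865 (s : k' ≃+* k') {z : k'} (hz : z ≠ 0) (hsz : s z = z)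
    (d : GL (Fin 2) k') (n : ℕ) :
    twNorm s n (scal340 z hz * d) = scal340 (z ^ n) (pow_ne_zero n hz) * twNorm s n d := by
  induction n with
  | zero =>
    show (1 : GL (Fin 2) k') = scal340 (z ^ 0) _ * 1
    rw [mul_one, scal_congr865 (pow_ne_zero 0 hz) one_ne_zero (pow_zero z), scal_one865]
  | succ n ih =>
    have e1 : twNorm s (n + 1) (scal340 z hz * d)
        = (scal340 z hz * d) * glAut s (twNorm s n (scal340 z hz * d)) := rfl
    have e2 : twNorm s (n + 1) d = d * glAut s (twNorm s n d) := rfl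
    have hsn : s (z ^ n) = z ^ n := by rw [map_pow, hsz]
    rw [e1, e2, ih, map_mul, glAut_scal865 s (pow_ne_zero n hz) hsn]
    have e3 : scal340 (z ^ (n + 1)) (pow_ne_zero (n + 1) hz)
        = scal340 z hz * scal340 (z ^ n) (pow_ne_zero n hz) := by
      rw [scal_mul_scal865]
      exact scal_congr865 _ _ (pow_succ' z n)
    rw [e3]
    calc scal340 z hz * d * (scal340 (z ^ n) (pow_ne_zero n hz) * glAut s (twNorm s n d))
        = scal340 z hz * (d * scal340 (z ^ n) (pow_ne_zero n hz)) * glAut s (twNorm s n d) := by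
          group
      _ = scal340 z hz * (scal340 (z ^ n) (pow_ne_zero n hz) * d) * glAut s (twNorm s n d) := by
          rw [← scal340_comm (z ^ n) (pow_ne_zero n hz) d]
      _ = scal340 z hz * scal340 (z ^ n) (pow_ne_zero n hz) * (d * glAut s (twNorm s n d)) := by
          group

/-- `U = N_l δ'` commutes with `δ' s`: `U δ' = δ' s(U)`. -/
theorem norm_comm865 (s : k' ≃+* k') (l : ℕ) (hord : ∀ y : k', (s ^ l) y = y)
    (d : GL (Fin 2) k') :
    twNorm s l d * d = d * glAut s (twNorm s l d) := by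
  have h1 := H166.twN_succ_right166 (glAut s) l d
  rw [iterate_glAut60 s l hord] at h1
  have h2 := H166.twN_succ166 (glAut s) l d
  unfold twNorm
  rw [← h1, h2]

/-- If `U = α + β Θ` with `s`-fixed scalars `α`, `β ≠ 0` and `U δ' = δ' s(U)` then
`Θ δ' = δ' s(Θ)`. -/
theorem theta_comm865 (s : k' ≃+* k') {α β : k'} (hα : s α = α) (hβ : s β = β) (hβ0 : β ≠ 0)
    {U Θ d : GL (Fin 2) k'}
    (hU : (U : Matrix (Fin 2) (Fin 2) k')
      = α • (1 : Matrix (Fin 2) (Fin 2) k') + β • (Θ : Matrix (Fin 2) (Fin 2) k'))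
    (hc : U * d = d * glAut s U) : Θ * d = d * glAut s Θ := by
  have hsU : ((glAut s U : GL (Fin 2) k') : Matrix (Fin 2) (Fin 2) k')
      = α • (1 : Matrix (Fin 2) (Fin 2) k')
        + β • ((glAut s Θ : GL (Fin 2) k') : Matrix (Fin 2) (Fin 2) k') := by
    ext a b
    rw [coe_glAut340, hU]
    simp only [Matrix.add_apply, Matrix.smul_apply, smul_eq_mul, map_add, map_mul, hα, hβ,
      coe_glAut340]
    congr 2
    by_cases hab : a = b
    · subst hab; simp
    · simp [hab]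
  have h1 := congrArg (fun g : GL (Fin 2) k' => (g : Matrix (Fin 2) (Fin 2) k')) hc
  simp only [Matrix.GeneralLinearGroup.coe_mul] at h1
  rw [hU, hsU, Matrix.add_mul, Matrix.mul_add, Matrix.smul_mul, Matrix.mul_smul,
    Matrix.smul_mul, Matrix.mul_smul, Matrix.one_mul, Matrix.mul_one] at h1
  have h2 := add_left_cancel h1
  apply ext_mat129
  rw [Matrix.GeneralLinearGroup.coe_mul, Matrix.GeneralLinearGroup.coe_mul]
  have h3 := congrArg (fun M : Matrix (Fin 2) (Fin 2) k' => β⁻¹ • M) h2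
  simpa [smul_smul, inv_mul_cancel₀ hβ0] using h3

end Scal

/-! ### The family `h_m = N_m(δ') s^m(G)` -/

section Fam

variable {k' : Type} [Field k'] [Valued k' Γ₀]

/-- `h_m = N_m(d) s^m(G)`. -/
def fam865 (s : k' ≃+* k') (d G : GL (Fin 2) k') (m : ℕ) : GL (Fin 2) k' :=
  twNorm s m d * (glAut s)^[m] G

theorem fam_zero865 (s : k' ≃+* k') (d G : GL (Fin 2) k') : fam865 s d G 0 = G := by
  show (1 : GL (Fin 2) k') * G = G
  rw [one_mul]

theorem fam_succ865 (s : k' ≃+* k') (d G : GL (Fin 2) k') (m : ℕ) :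
    d * glAut s (fam865 s d G m) = fam865 s d G (m + 1) := by
  unfold fam865
  rw [map_mul, ← mul_assoc, Function.iterate_succ_apply']
  rfl

theorem theta_fam865 (s : k' ≃+* k') {Θ d G w' : GL (Fin 2) k'}
    (hΘ : Θ * d = d * glAut s Θ) (hG : Θ * G = G * w') (hw : glAut s w' = w') (m : ℕ) :
    Θ * fam865 s d G m = fam865 s d G m * w' := by
  unfold fam865
  have h1 : Θ * twNorm s m d = twNorm s m d * (glAut s)^[m] Θ :=
    H166.twN_semiconj166 (glAut s) d Θ hΘ m
  have h2 : (glAut s)^[m] Θ * (glAut s)^[m] G = (glAut s)^[m] G * w' := by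
    rw [← iterate_map_mul, hG, iterate_map_mul,
      Function.iterate_fixed hw]
  calc Θ * (twNorm s m d * (glAut s)^[m] G)
      = (Θ * twNorm s m d) * (glAut s)^[m] G := by rw [mul_assoc]
    _ = twNorm s m d * ((glAut s)^[m] Θ * (glAut s)^[m] G) := by rw [h1, mul_assoc]
    _ = twNorm s m d * (glAut s)^[m] G * w' := by rw [h2, mul_assoc]

end Fam

/-! ### The assembly -/

section Main

variable {k k' : Type} [Field k] [Field k'] [Valued k Γ₀] [Valued k' Γ₀]

theorem mint_map_i865 (i : k →+* k') (hi : ∀ x : k, Valued.v (i x) = Valued.v x)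
    {g : GL (Fin 2) k} (hg : InU 0 g) :
    MInt865 ((Matrix.GeneralLinearGroup.map i g : GL (Fin 2) k') :
      Matrix (Fin 2) (Fin 2) k') := by
  intro a b
  rw [coe_map60, hi]
  exact inU_int865 hg a b

theorem trace_map865 (i : k →+* k') (g : GL (Fin 2) k) :
    ((Matrix.GeneralLinearGroup.map i g : GL (Fin 2) k') : Matrix (Fin 2) (Fin 2) k').trace
      = i (g : Matrix (Fin 2) (Fin 2) k).trace := by
  rw [Matrix.trace_fin_two, Matrix.trace_fin_two, coe_map60, coe_map60, map_add]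

theorem coe_conj865 (x A : GL (Fin 2) k') {α β : k'} {B : Matrix (Fin 2) (Fin 2) k'}
    (hA : (A : Matrix (Fin 2) (Fin 2) k') = α • (1 : Matrix (Fin 2) (Fin 2) k') + β • B) :
    ((x⁻¹ * A * x : GL (Fin 2) k') : Matrix (Fin 2) (Fin 2) k')
      = α • (1 : Matrix (Fin 2) (Fin 2) k')
        + β • (((x⁻¹ : GL (Fin 2) k') : Matrix (Fin 2) (Fin 2) k') * B
          * (x : Matrix (Fin 2) (Fin 2) k')) := by
  have hxx : ((x⁻¹ : GL (Fin 2) k') : Matrix (Fin 2) (Fin 2) k')
      * (x : Matrix (Fin 2) (Fin 2) k') = 1 := by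
    rw [← Matrix.GeneralLinearGroup.coe_mul, inv_mul_cancel]; rfl
  rw [Matrix.GeneralLinearGroup.coe_mul, Matrix.GeneralLinearGroup.coe_mul, hA,
    Matrix.mul_add, Matrix.add_mul, Matrix.mul_smul, Matrix.smul_mul, Matrix.mul_one, hxx,
    Matrix.mul_smul, Matrix.smul_mul]

theorem trace_conj865 (x A : GL (Fin 2) k') :
    ((x⁻¹ * A * x : GL (Fin 2) k') : Matrix (Fin 2) (Fin 2) k').trace
      = (A : Matrix (Fin 2) (Fin 2) k').trace := by
  have hxx : (x : Matrix (Fin 2) (Fin 2) k')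
      * ((x⁻¹ : GL (Fin 2) k') : Matrix (Fin 2) (Fin 2) k') = 1 := by
    rw [← Matrix.GeneralLinearGroup.coe_mul, mul_inv_cancel]; rfl
  rw [Matrix.GeneralLinearGroup.coe_mul, Matrix.GeneralLinearGroup.coe_mul,
    Matrix.trace_mul_cycle, hxx, one_mul]

theorem det_conj865' (x A : GL (Fin 2) k') :
    ((x * A * x⁻¹ : GL (Fin 2) k') : Matrix (Fin 2) (Fin 2) k').det
      = (A : Matrix (Fin 2) (Fin 2) k').det := by
  have := det_conj60 A x⁻¹
  rwa [inv_inv] at this

theorem vpow_eq_one865 {v : Γ₀} {l : ℕ} (hl : 0 < l) (h : v ^ l = 1) : v = 1 := by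
  have hv : v ≠ 0 := by
    rintro rfl
    rw [zero_pow (by omega)] at h
    exact zero_ne_one h
  have h1 := congrArg WithZero.log h
  rw [WithZero.log_pow, WithZero.log_one] at h1
  have h2 : WithZero.log v = 0 := by
    rcases smul_eq_zero.1 h1 with h3 | h3
    · omega
    · exact h3
  have h3 : WithZero.log v = WithZero.log (1 : Γ₀) := by rw [h2, WithZero.log_one]
  exact log_inj129 hv one_ne_zero h3

/-- **T6.13.3b.3 from `NFExistsC865` and `LatSumC865`.** -/
theorem twNF_of_leaves865 (hE : NFExistsC865) (hL : LatSumC865) : TwNFC865 := by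
  intro k k' _ _ _ _ q l i s δ γ j r h hdvd
  have hU := h.unr
  have hs := hU.hext.val_s
  have hfix := hU.hext.cyc.fix_i
  have hord := hU.hext.cyc.order
  have hi := val_i865 hU
  have hlpos : 0 < l := hU.hl.pos
  obtain ⟨ϖ, a, w, uy, y, h₀, hNF, hγ⟩ := hE k q hU.hk γ j r h.hreg h.hne h.hnr h.hj h.hr
  obtain ⟨c, hc⟩ := isConj_iff.1 h.hconj
  obtain ⟨j', hj'⟩ := hdvd
  have hϖ0 : i ϖ ≠ 0 := by
    intro h0
    have := hi ϖ
    rw [h0, map_zero, hNF.unif] at this
    exact WithZero.exp_ne_zero this.symm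
  -- the scalar `z = ϖ^j'`
  have hz : (i ϖ) ^ j' ≠ 0 := zpow_ne_zero j' hϖ0
  have hsz : s ((i ϖ) ^ j')⁻¹ = ((i ϖ) ^ j')⁻¹ := by rw [map_inv₀, map_zpow₀, hfix]
  have hzj : (((i ϖ) ^ j')⁻¹) ^ l * (i ϖ) ^ j = 1 := by
    rw [inv_pow, ← zpow_natCast, ← zpow_mul, hj', mul_comm j' (l : ℤ)]
    exact inv_mul_cancel₀ (zpow_ne_zero _ hϖ0)
  -- the elements
  obtain ⟨iw, hiw⟩ : ∃ iw : GL (Fin 2) k', iw = Matrix.GeneralLinearGroup.map i w := ⟨_, rfl⟩
  obtain ⟨iu, hiudef⟩ : ∃ iu : GL (Fin 2) k', iu = Matrix.GeneralLinearGroup.map i uy :=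
    ⟨_, rfl⟩
  obtain ⟨G, hGdef⟩ : ∃ G : GL (Fin 2) k', G = c⁻¹ * Matrix.GeneralLinearGroup.map i h₀ :=
    ⟨_, rfl⟩
  obtain ⟨d, hddef⟩ : ∃ d : GL (Fin 2) k',
      d = scal340 ((i ϖ) ^ j')⁻¹ (inv_ne_zero hz) * δ := ⟨_, rfl⟩
  obtain ⟨Θ, hΘdef⟩ : ∃ Θ : GL (Fin 2) k', Θ = G * iw * G⁻¹ := ⟨_, rfl⟩
  have hNδ : twNorm s l δ = G * Matrix.GeneralLinearGroup.map i y * G⁻¹ := by
    have e : twNorm s l δ = c⁻¹ * Matrix.GeneralLinearGroup.map i γ * c := by
      rw [← hc]; group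
    rw [e, hγ, map_mul, map_mul, map_inv, hGdef]
    group
  have hy : Matrix.GeneralLinearGroup.map i y
      = scal340 ((i ϖ) ^ j) (zpow_ne_zero j hϖ0) * iu := by
    apply ext_mat129
    ext a' b'
    rw [scal340_mul_apply, hiudef, coe_map60, coe_map60, hNF.y_eq, Matrix.smul_apply,
      smul_eq_mul, map_mul, map_zpow₀]
  have hNd : twNorm s l d = G * iu * G⁻¹ := by
    rw [hddef, twNorm_scal865 s (inv_ne_zero hz) hsz δ l, hNδ, hy]
    have e : G * (scal340 ((i ϖ) ^ j) (zpow_ne_zero j hϖ0) * iu) * G⁻¹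
        = scal340 ((i ϖ) ^ j) (zpow_ne_zero j hϖ0) * (G * iu * G⁻¹) := by
      rw [← mul_assoc G, ← scal340_comm]; group
    rw [e, ← mul_assoc, scal_mul_scal865,
      scal_congr865 _ one_ne_zero hzj, scal_one865, one_mul]
  have hiu : (iu : Matrix (Fin 2) (Fin 2) k')
      = i a • (1 : Matrix (Fin 2) (Fin 2) k') + i ϖ ^ r • (iw : Matrix (Fin 2) (Fin 2) k') := by
    ext a' b'
    rw [hiudef, hiw, coe_map60, hNF.u_eq]
    simp only [Matrix.add_apply, Matrix.smul_apply, smul_eq_mul, map_add, map_mul, map_pow,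
      coe_map60]
    congr 2
    by_cases hab : a' = b'
    · subst hab; simp
    · simp [hab]
  have hUval : (twNorm s l d : Matrix (Fin 2) (Fin 2) k')
      = i a • (1 : Matrix (Fin 2) (Fin 2) k') + i ϖ ^ r • (Θ : Matrix (Fin 2) (Fin 2) k') := by
    rw [hNd]
    have := coe_conj865 G⁻¹ iu hiu
    rw [inv_inv] at this
    rw [this, hΘdef, Matrix.GeneralLinearGroup.coe_mul, Matrix.GeneralLinearGroup.coe_mul]
  have hΘd : Θ * d = d * glAut s Θ :=
    theta_comm865 s (hfix a) (by rw [map_pow, hfix]) (pow_ne_zero r hϖ0) hUval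
      (norm_comm865 s l hord d)
  have hΘG : Θ * G = G * iw := by
    rw [hΘdef]; group
  have hsiw : glAut s iw = iw := by rw [hiw]; exact H166.glAut_map166 i s hfix w
  -- the lattice
  obtain ⟨n, hn⟩ : ∃ n, l = n + 1 := ⟨l - 1, by omega⟩
  obtain ⟨x, cc, hint, hcint, hx⟩ := hL k' (q ^ l) hU.hk' n
    (fun m => fam865 s d G (m : ℕ))
  have hxx : ((x⁻¹ : GL (Fin 2) k') : Matrix (Fin 2) (Fin 2) k')
      * (x : Matrix (Fin 2) (Fin 2) k') = 1 := by
    rw [← Matrix.GeneralLinearGroup.coe_mul, inv_mul_cancel]; rfl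
  have hiuint : MInt865 (iu : Matrix (Fin 2) (Fin 2) k') := by
    rw [hiudef]; exact mint_map_i865 i hi hNF.u_int
  have hiwint : MInt865 (iw : Matrix (Fin 2) (Fin 2) k') := by
    rw [hiw]; exact mint_map_i865 i hi hNF.w_int
  -- `x⁻¹ h_{m+1}` is integral for `m < l`
  have hstep : ∀ m : Fin (n + 1),
      MInt865 ((x⁻¹ * fam865 s d G ((m : ℕ) + 1) : GL (Fin 2) k') :
        Matrix (Fin 2) (Fin 2) k') := by
    intro m
    by_cases hm : (m : ℕ) + 1 < n + 1
    · exact hint ⟨(m : ℕ) + 1, hm⟩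
    · have hm' : (m : ℕ) + 1 = l := by have := m.2; omega
      have e : fam865 s d G ((m : ℕ) + 1) = fam865 s d G 0 * iu := by
        rw [hm', fam_zero865]
        show twNorm s l d * (glAut s)^[l] G = G * iu
        rw [iterate_glAut60 s l hord, hNd]; group
      rw [e, ← mul_assoc, Matrix.GeneralLinearGroup.coe_mul]
      exact mint_mul865 (hint ⟨0, by omega⟩) hiuint
  -- the matrix of `u = x⁻¹ δ' s(x)`
  have hu_val : ((x⁻¹ * d * glAut s x : GL (Fin 2) k') : Matrix (Fin 2) (Fin 2) k')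
      = ∑ m : Fin (n + 1),
          ((x⁻¹ * fam865 s d G ((m : ℕ) + 1) : GL (Fin 2) k') : Matrix (Fin 2) (Fin 2) k')
            * (cc m).map s := by
    rw [Matrix.GeneralLinearGroup.coe_mul, coe_glAut_eq_map865, hx]
    have e1 : (∑ m : Fin (n + 1),
        ((fam865 s d G (m : ℕ) : GL (Fin 2) k') : Matrix (Fin 2) (Fin 2) k') * cc m).map s
        = ∑ m : Fin (n + 1),
          ((glAut s (fam865 s d G (m : ℕ)) : GL (Fin 2) k') : Matrix (Fin 2) (Fin 2) k')
            * (cc m).map s := by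
      have := map_sum (s : k' →+* k').mapMatrix
        (fun m : Fin (n + 1) =>
          ((fam865 s d G (m : ℕ) : GL (Fin 2) k') : Matrix (Fin 2) (Fin 2) k') * cc m)
        Finset.univ
      simp only [RingHom.mapMatrix_apply, RingHom.coe_coe] at this
      rw [this]
      refine Finset.sum_congr rfl (fun m _ => ?_)
      rw [Matrix.map_mul, coe_glAut_eq_map865]
    rw [e1, Finset.mul_sum]
    refine Finset.sum_congr rfl (fun m _ => ?_)
    rw [← fam_succ865, ← Matrix.mul_assoc, Matrix.GeneralLinearGroup.coe_mul,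
      Matrix.GeneralLinearGroup.coe_mul, Matrix.GeneralLinearGroup.coe_mul]
    simp only [Matrix.mul_assoc]
  have hu_int : MInt865 ((x⁻¹ * d * glAut s x : GL (Fin 2) k') :
      Matrix (Fin 2) (Fin 2) k') := by
    rw [hu_val]
    exact mint_sum865 _ _ (fun m _ => mint_mul865 (hstep m) (mint_map865 s hs (hcint m)))
  -- the matrix of `W = x⁻¹ Θ x`
  have hW_val : ((x⁻¹ * Θ * x : GL (Fin 2) k') : Matrix (Fin 2) (Fin 2) k')
      = ∑ m : Fin (n + 1),
          ((x⁻¹ * fam865 s d G (m : ℕ) : GL (Fin 2) k') : Matrix (Fin 2) (Fin 2) k')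
            * (iw : Matrix (Fin 2) (Fin 2) k') * cc m := by
    rw [Matrix.GeneralLinearGroup.coe_mul, hx, Finset.mul_sum]
    refine Finset.sum_congr rfl (fun m _ => ?_)
    rw [← Matrix.mul_assoc, ← Matrix.GeneralLinearGroup.coe_mul,
      ← Matrix.GeneralLinearGroup.coe_mul, mul_assoc x⁻¹ Θ,
      theta_fam865 s hΘd hΘG hsiw (m : ℕ), ← mul_assoc, Matrix.GeneralLinearGroup.coe_mul]
  have hW_int : MInt865 ((x⁻¹ * Θ * x : GL (Fin 2) k') : Matrix (Fin 2) (Fin 2) k') := by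
    rw [hW_val]
    exact mint_sum865 _ _ (fun m _ =>
      mint_mul865 (mint_mul865 (hint m) hiwint) (hcint m))
  -- determinants
  have hdet_d : Valued.v (d : Matrix (Fin 2) (Fin 2) k').det = 1 := by
    apply vpow_eq_one865 hlpos
    rw [← vdet_twNorm60 s hs d l, hNd, det_conj865', hiudef, det_map60, hi]
    exact vdet_of_inU865 hNF.u_int
  have hdet_u : Valued.v ((x⁻¹ * d * glAut s x : GL (Fin 2) k') :
      Matrix (Fin 2) (Fin 2) k').det = 1 := by
    rw [vdet_twconj60 s hs]; exact hdet_d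
  have hdet_W : ((x⁻¹ * Θ * x : GL (Fin 2) k') : Matrix (Fin 2) (Fin 2) k').det
      = i (w : Matrix (Fin 2) (Fin 2) k).det := by
    rw [det_conj60, hΘdef, det_conj865', hiw, det_map60]
  have hvdet_w : Valued.v (w : Matrix (Fin 2) (Fin 2) k).det = 1 := vdet_of_inU865 hNF.w_int
  have hδ : δ = scal340 ((i ϖ) ^ j') hz * d := by
    rw [hddef, ← mul_assoc, scal_mul_scal865,
      scal_congr865 _ one_ne_zero (mul_inv_cancel₀ hz), scal_one865, one_mul]
  refine ⟨ϖ, a, (w : Matrix (Fin 2) (Fin 2) k).trace, (w : Matrix (Fin 2) (Fin 2) k).det,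
    x⁻¹ * Θ * x, x⁻¹ * d * glAut s x, x, (i ϖ) ^ j', ?_, hz, ?_⟩
  · refine ⟨hNF.unif, hNF.a_int, ?_, hvdet_w, hNF.w_irr,
      inU_zero_of_int340 hW_int (by rw [hdet_W, hi]; exact hvdet_w),
      inU_zero_of_int340 hu_int hdet_u, ?_, hdet_W, ?_⟩
    · rw [Matrix.trace_fin_two]
      exact le_trans (Valuation.map_add _ _ _)
        (max_le (inU_int865 hNF.w_int 0 0) (inU_int865 hNF.w_int 1 1))
    · have e := trace_conj865 G⁻¹ iw
      rw [inv_inv] at e
      rw [trace_conj865, hΘdef, e, hiw, trace_map865]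
    · rw [twNorm_twconj865, iterate_glAut60 s l hord, coe_conj865 x _ hUval,
        Matrix.GeneralLinearGroup.coe_mul, Matrix.GeneralLinearGroup.coe_mul]
  · have e : x⁻¹ * δ * glAut s x = scal340 ((i ϖ) ^ j') hz * (x⁻¹ * d * glAut s x) := by
      rw [hδ, ← mul_assoc x⁻¹, ← scal340_comm]; group
    rw [e]
    ext a' b'
    rw [scal340_mul_apply, Matrix.smul_apply, smul_eq_mul]

end Main

end Fermat.Agent.LT.T6.H865
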