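import Mathlib
import Fermat.Agent.LT.T6.H865.TwEllNF
import Fermat.Agent.LT.T6.H811.NFExists
import Fermat.Agent.LT.T6.H264.LatSum
import Fermat.Agent.LT.T6.H820.H90r
import Fermat.Agent.LT.T6.H241.FixSigma
import Fermat.Agent.LT.T6.H426.Outside
import Fermat.Agent.LT.T6.H864.CongFix
import Fermat.Agent.LT.T6.H439.BallCount

/-!
# Row LT, tower T6, leaf T6.13.3b (`H60.FixTwC`, registry 1133 / 982) -- CLOSED (helper865)

OFF-MAIN.  `fixTwC865 : H60.FixTwC`, UNCONDITIONAL: the assembly of `T6/H865/TwEllSpec.lean` with
the leaves of helper811 (`NFExistsC865`), helper264 (`LatSumC865`), helper820 (`H90rC865`),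
helper241 (`FixSigmaC865`), helper426 (`OutsideC865`), helper864 (`CongFixC865`) and helper439
(`H277.BallCountC`), all vendored byte-identical.
-/

set_option autoImplicit false

noncomputable section

namespace Fermat.Agent.LT.T6.H865

open Fermat.Agent.LT.T6

/-- The twisted normal form at the centre exists. -/
theorem twNFC865_closed : TwNFC865 :=
  twNF_of_leaves865 H811.nfExistsC811 H264.latSumC264

/-- The count in twisted normal form. -/
theorem twNFCountC865_closed : TwNFCountC865 :=
  twNFCount_of_leaves865 H820.h90rC820 H241.fixSigmaC241 H426.outsideC426 H864.congFixC864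
    H439.ballCountC_h439

/-- **T6.13.3b (`H60.FixTwC`), closed.** -/
theorem fixTwC865 : H60.FixTwC :=
  fixTw_of_leaves865 twNFC865_closed twNFCountC865_closed

end Fermat.Agent.LT.T6.H865
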